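import Fermat.Agent.S19.KM.Hopf.Defs
import Fermat.Agent.S19.KM.Red.Graph

/-!
# S19 / KM route, layer [H], section H0: basic properties of the order `HA`.
-/

set_option autoImplicit false

noncomputable section

namespace Fermat.Agent.S19.KM.RedData

open Module Submodule

variable {K F k Fk : Type*} [Field K] [Field F] [Algebra K F] [Field k] [Field Fk] [Algebra k Fk]
variable {R : RedData K F k Fk} {ι : Type*} [Fintype ι] [DecidableEq ι] {X : Type*}
variable {v : ι → F} {vb : ι → Fk} {𝒱 : X → Submodule K F}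

theorem idem_mem_HA (P₀ : X) : R.idem 𝒱 P₀ ∈ R.HA v 𝒱 :=
  Algebra.subset_adjoin (Or.inl ⟨P₀, rfl⟩)

theorem genFun_mem_HA {P₀ : X} {S : Finset ι} (hS : ∃ u, R.IsGraph v S u (𝒱 P₀)) {b j : ι}
    (hb : b ∈ S) (hj : j ∉ S) : R.genFun v 𝒱 P₀ S b j ∈ R.HA v 𝒱 :=
  Algebra.subset_adjoin (Or.inr ⟨P₀, S, hS, b, hb, j, hj, rfl⟩)

theorem idem_apply_of_eq {P₀ P : X} (h : R.redSub (𝒱 P) = R.redSub (𝒱 P₀)) :
    R.idem 𝒱 P₀ P = 1 := by
  simp [idem, h]

theorem idem_apply_of_ne {P₀ P : X} (h : R.redSub (𝒱 P) ≠ R.redSub (𝒱 P₀)) :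
    R.idem 𝒱 P₀ P = 0 := by
  simp [idem, h]

theorem genFun_apply_of_eq {P₀ P : X} (h : R.redSub (𝒱 P) = R.redSub (𝒱 P₀)) (S : Finset ι)
    (b j : ι) : R.genFun v 𝒱 P₀ S b j P = R.gcoord v S (𝒱 P) b j := by
  simp [genFun, h]

theorem genFun_apply_of_ne {P₀ P : X} (h : R.redSub (𝒱 P) ≠ R.redSub (𝒱 P₀)) (S : Finset ι)
    (b j : ι) : R.genFun v 𝒱 P₀ S b j P = 0 := by
  simp [genFun, h]

/-- on the class of `P₀` the residue of a graph coordinate is constant -/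
theorem res_gcoord_eq (h : R.IsFrame v vb) (h𝒱 : ∀ P, 𝒱 P ≤ span K (Set.range v)) {P₀ P : X}
    {S : Finset ι} {u : ι → ι → R.A} (hu : R.IsGraph v S u (𝒱 P₀))
    (hP : R.redSub (𝒱 P) = R.redSub (𝒱 P₀)) {b j : ι} (hb : b ∈ S) (hj : j ∉ S) :
    R.res (R.gcoord v S (𝒱 P) b j) = R.res (u b j) := by
  obtain ⟨u', hu', hres⟩ := hu.of_redSub_eq h (h𝒱 P) hP
  rw [hu'.gcoord_eq h b hb j hj, hres b hb j hj]

/-- every element of `HA` has constant reduction on every class -/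
theorem res_eq_of_mem_HA (h : R.IsFrame v vb) (h𝒱 : ∀ P, 𝒱 P ≤ span K (Set.range v))
    {φ : X → R.A} (hφ : φ ∈ R.HA v 𝒱) {P Q : X} (hPQ : R.redSub (𝒱 P) = R.redSub (𝒱 Q)) :
    R.res (φ P) = R.res (φ Q) := by
  unfold HA at hφ
  induction hφ using Algebra.adjoin_induction with
  | mem x hx =>
    rcases hx with ⟨P₀, rfl⟩ | ⟨P₀, S, ⟨u, hu⟩, b, hb, j, hj, rfl⟩
    · by_cases hc : R.redSub (𝒱 P) = R.redSub (𝒱 P₀)
      · rw [idem_apply_of_eq hc, idem_apply_of_eq (hPQ.symm.trans hc)]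
      · rw [idem_apply_of_ne hc, idem_apply_of_ne (fun e => hc (hPQ.trans e))]
    · by_cases hc : R.redSub (𝒱 P) = R.redSub (𝒱 P₀)
      · rw [genFun_apply_of_eq hc, genFun_apply_of_eq (hPQ.symm.trans hc),
          res_gcoord_eq h h𝒱 hu hc hb hj, res_gcoord_eq h h𝒱 hu (hPQ.symm.trans hc) hb hj]
      · rw [genFun_apply_of_ne hc, genFun_apply_of_ne (fun e => hc (hPQ.trans e))]
  | algebraMap r => rfl
  | add x y _ _ hx hy => rw [Pi.add_apply, Pi.add_apply, map_add, map_add, hx, hy]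
  | mul x y _ _ hx hy => rw [Pi.mul_apply, Pi.mul_apply, map_mul, map_mul, hx, hy]

/-- the generators separate points -/
theorem exists_gens_ne (h : R.IsFrame v vb) (h𝒱 : ∀ P, 𝒱 P ≤ span K (Set.range v))
    (hinj : Function.Injective 𝒱) {P Q : X} (hPQ : P ≠ Q) : ∃ φ ∈ R.gens v 𝒱, φ P ≠ φ Q := by
  by_cases hc : R.redSub (𝒱 Q) = R.redSub (𝒱 P)
  · obtain ⟨S, u, hu⟩ := h.exists_isGraph (h𝒱 P)
    obtain ⟨u', hu', -⟩ := hu.of_redSub_eq h (h𝒱 Q) hc
    have hne : ∃ b ∈ S, ∃ j ∉ S, u b j ≠ u' b j := by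
      by_contra hcon
      push Not at hcon
      have h1 : R.IsGraph v S u' (𝒱 P) := hu.congr hcon
      apply hPQ
      apply hinj
      unfold IsGraph at h1 hu'
      rw [h1, hu']
    obtain ⟨b, hb, j, hj, hbj⟩ := hne
    refine ⟨R.genFun v 𝒱 P S b j, Or.inr ⟨P, S, ⟨u, hu⟩, b, hb, j, hj, rfl⟩, ?_⟩
    rw [genFun_apply_of_eq rfl, genFun_apply_of_eq hc, hu.gcoord_eq h b hb j hj,
      hu'.gcoord_eq h b hb j hj]
    exact hbj
  · refine ⟨R.idem 𝒱 P, Or.inl ⟨P, rfl⟩, ?_⟩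
    rw [idem_apply_of_eq rfl, idem_apply_of_ne hc]
    exact one_ne_zero

theorem prodSet_mul_mem (H : Subalgebra R.A (X → R.A)) {Φ Ψ : X × X → R.A}
    (hΦ : Φ ∈ R.prodSet H) (hΨ : Ψ ∈ R.prodSet H) : Φ * Ψ ∈ R.prodSet H := by
  obtain ⟨a, ha, b, hb, rfl⟩ := hΦ
  obtain ⟨a', ha', b', hb', rfl⟩ := hΨ
  refine ⟨a * a', H.mul_mem ha ha', b * b', H.mul_mem hb hb', ?_⟩
  funext q
  simp only [Pi.mul_apply]
  ring

/-- the span of `prodSet H` is closed under multiplication -/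
theorem span_prodSet_mul_mem (H : Subalgebra R.A (X → R.A)) {Φ Ψ : X × X → R.A}
    (hΦ : Φ ∈ span R.A (R.prodSet H)) (hΨ : Ψ ∈ span R.A (R.prodSet H)) :
    Φ * Ψ ∈ span R.A (R.prodSet H) := by
  have h1 : Φ * Ψ ∈ span R.A (R.prodSet H) * span R.A (R.prodSet H) := Submodule.mul_mem_mul hΦ hΨ
  rw [Submodule.span_mul_span] at h1
  refine Submodule.span_mono ?_ h1
  rintro _ ⟨x, hx, y, hy, rfl⟩
  exact prodSet_mul_mem H hx hy

/-- the span of `prodSet H` contains the constants -/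
theorem algebraMap_mem_span_prodSet (H : Subalgebra R.A (X → R.A)) (r : R.A) :
    algebraMap R.A (X × X → R.A) r ∈ span R.A (R.prodSet H) := by
  have h1 : (fun q : X × X => (1 : X → R.A) q.1 * (1 : X → R.A) q.2) ∈ R.prodSet H :=
    ⟨1, H.one_mem, 1, H.one_mem, rfl⟩
  have h2 := Submodule.smul_mem _ r (Submodule.subset_span h1)
  convert h2 using 1
  funext q
  simp

/-- the span of `prodSet H` is closed under multiplication and contains the constants, hence the set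
of `φ` with `φ ∘ (+) ∈ span (prodSet H)` is a subalgebra -/
theorem comul_mem_of_gens [AddCommGroup X] (H : Subalgebra R.A (X → R.A)) (G : Set (X → R.A))
    (hG : ∀ φ ∈ G, (fun q : X × X => φ (q.1 + q.2)) ∈ span R.A (R.prodSet H)) :
    ∀ φ ∈ Algebra.adjoin R.A G, (fun q : X × X => φ (q.1 + q.2)) ∈ span R.A (R.prodSet H) := by
  intro φ hφ
  induction hφ using Algebra.adjoin_induction with
  | mem x hx => exact hG x hx
  | algebraMap r => exact algebraMap_mem_span_prodSet H r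
  | add x y _ _ hx hy => exact Submodule.add_mem _ hx hy
  | mul x y _ _ hx hy => exact span_prodSet_mul_mem H hx hy

end Fermat.Agent.S19.KM.RedData
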