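import Fermat.Agent.S19.KM.Hopf.Basic
import Fermat.Agent.S19.KM.Red.Reg

/-!
# S19 / KM route, layer [H], section H1: the ring `𝒮` of a pair of classes.
-/

set_option autoImplicit false

noncomputable section

namespace Fermat.Agent.S19.KM.RedData

open Module Submodule

variable {K F k Fk : Type*} [Field K] [Field F] [Algebra K F] [Field k] [Field Fk] [Algebra k Fk]
variable {R : RedData K F k Fk} {ι : Type*} [Fintype ι] [DecidableEq ι] {X : Type*}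
variable {v : ι → F} {vb : ι → Fk} {𝒱 : X → Submodule K F}

/-- the subalgebra of functions on `Ω ⊆ X × X` generated by `a(P)` and `b(Q)`, `a b ∈ H` -/
def pairAlg (H : Subalgebra R.A (X → R.A)) (Ω : Set (X × X)) : Subalgebra R.A (Ω → R.A) :=
  Algebra.adjoin R.A ({s | ∃ a ∈ H, s = fun ω => a ω.1.1} ∪ {s | ∃ b ∈ H, s = fun ω => b ω.1.2})

theorem fst_mem_pairAlg (H : Subalgebra R.A (X → R.A)) (Ω : Set (X × X)) {a : X → R.A}
    (ha : a ∈ H) : (fun ω : Ω => a ω.1.1) ∈ pairAlg H Ω :=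
  Algebra.subset_adjoin (Or.inl ⟨a, ha, rfl⟩)

theorem snd_mem_pairAlg (H : Subalgebra R.A (X → R.A)) (Ω : Set (X × X)) {b : X → R.A}
    (hb : b ∈ H) : (fun ω : Ω => b ω.1.2) ∈ pairAlg H Ω :=
  Algebra.subset_adjoin (Or.inr ⟨b, hb, rfl⟩)

/-- every element of `pairAlg` is the restriction of an element of `span (prodSet H)` -/
theorem exists_of_mem_pairAlg (H : Subalgebra R.A (X → R.A)) (Ω : Set (X × X)) {s : Ω → R.A}
    (hs : s ∈ pairAlg H Ω) : ∃ Φ ∈ span R.A (R.prodSet H), ∀ ω : Ω, s ω = Φ ω.1 := by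
  unfold pairAlg at hs
  induction hs using Algebra.adjoin_induction with
  | mem x hx =>
    rcases hx with ⟨a, ha, rfl⟩ | ⟨b, hb, rfl⟩
    · exact ⟨fun q => a q.1 * (1 : X → R.A) q.2,
        Submodule.subset_span ⟨a, ha, 1, H.one_mem, rfl⟩, fun ω => by simp⟩
    · exact ⟨fun q => (1 : X → R.A) q.1 * b q.2,
        Submodule.subset_span ⟨1, H.one_mem, b, hb, rfl⟩, fun ω => by simp⟩
  | algebraMap r => exact ⟨_, algebraMap_mem_span_prodSet H r, fun ω => rfl⟩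
  | add x y _ _ hx hy =>
    obtain ⟨Φ, hΦ, h1⟩ := hx
    obtain ⟨Ψ, hΨ, h2⟩ := hy
    exact ⟨Φ + Ψ, Submodule.add_mem _ hΦ hΨ, fun ω => by
      rw [Pi.add_apply, Pi.add_apply, h1, h2]⟩
  | mul x y _ _ hx hy =>
    obtain ⟨Φ, hΦ, h1⟩ := hx
    obtain ⟨Ψ, hΨ, h2⟩ := hy
    exact ⟨Φ * Ψ, span_prodSet_mul_mem H hΦ hΨ, fun ω => by
      rw [Pi.mul_apply, Pi.mul_apply, h1, h2]⟩

/-- the product of two classes -/
def classProd (R : RedData K F k Fk) (𝒱 : X → Submodule K F) (P₀ Q₀ : X) : Set (X × X) :=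
  {q | R.redSub (𝒱 q.1) = R.redSub (𝒱 P₀) ∧ R.redSub (𝒱 q.2) = R.redSub (𝒱 Q₀)}

theorem constRed_pairAlg (h : R.IsFrame v vb) (h𝒱 : ∀ P, 𝒱 P ≤ span K (Set.range v)) (P₀ Q₀ : X) :
    R.ConstRed (pairAlg (R.HA v 𝒱) (classProd R 𝒱 P₀ Q₀)) := by
  intro s hs ω ω'
  unfold pairAlg at hs
  induction hs using Algebra.adjoin_induction with
  | mem x hx =>
    rcases hx with ⟨a, ha, rfl⟩ | ⟨b, hb, rfl⟩
    · exact res_eq_of_mem_HA h h𝒱 ha (ω.2.1.trans ω'.2.1.symm)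
    · exact res_eq_of_mem_HA h h𝒱 hb (ω.2.2.trans ω'.2.2.symm)
  | algebraMap r => rfl
  | add x y _ _ hx hy => rw [Pi.add_apply, Pi.add_apply, map_add, map_add, hx, hy]
  | mul x y _ _ hx hy => rw [Pi.mul_apply, Pi.mul_apply, map_mul, map_mul, hx, hy]

/-- a family of members of the class of `P₀`, whose graph coordinates lie in `𝒮`, is regular -/
theorem isReg_of_class (h : R.IsFrame v vb) (h𝒱 : ∀ P, 𝒱 P ≤ span K (Set.range v)) {Ω : Type*}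
    (𝒮 : Subalgebra R.A (Ω → R.A)) (π : Ω → X) (P₀ : X)
    (hπ : ∀ ω, R.redSub (𝒱 (π ω)) = R.redSub (𝒱 P₀))
    (h𝒮 : ∀ a ∈ R.HA v 𝒱, (fun ω => a (π ω)) ∈ 𝒮) :
    R.IsReg 𝒮 v vb (fun ω => 𝒱 (π ω)) := by
  obtain ⟨S, u, hu⟩ := h.exists_isGraph (h𝒱 P₀)
  refine isReg_of_isGraph h S (fun b j ω => R.genFun v 𝒱 P₀ S b j (π ω)) ?_ ?_
  · intro b hb j hj
    exact h𝒮 _ (genFun_mem_HA ⟨u, hu⟩ hb hj)
  · intro ω
    obtain ⟨u', hu', -⟩ := hu.of_redSub_eq h (h𝒱 (π ω)) (hπ ω)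
    have e : (fun b j => R.genFun v 𝒱 P₀ S b j (π ω)) = R.gcoord v S (𝒱 (π ω)) := by
      funext b j
      exact genFun_apply_of_eq (hπ ω) S b j
    rw [e]
    exact hu'.isGraph_gcoord

theorem isReg_fst (h : R.IsFrame v vb) (h𝒱 : ∀ P, 𝒱 P ≤ span K (Set.range v)) (P₀ Q₀ : X) :
    R.IsReg (pairAlg (R.HA v 𝒱) (classProd R 𝒱 P₀ Q₀)) v vb (fun ω => 𝒱 ω.1.1) :=
  isReg_of_class h h𝒱 _ (fun ω : classProd R 𝒱 P₀ Q₀ => ω.1.1) P₀ (fun ω => ω.2.1)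
    (fun _ ha => fst_mem_pairAlg _ _ ha)

theorem isReg_snd (h : R.IsFrame v vb) (h𝒱 : ∀ P, 𝒱 P ≤ span K (Set.range v)) (P₀ Q₀ : X) :
    R.IsReg (pairAlg (R.HA v 𝒱) (classProd R 𝒱 P₀ Q₀)) v vb (fun ω => 𝒱 ω.1.2) :=
  isReg_of_class h h𝒱 _ (fun ω : classProd R 𝒱 P₀ Q₀ => ω.1.2) Q₀ (fun ω => ω.2.2)
    (fun _ hb => snd_mem_pairAlg _ _ hb)

end Fermat.Agent.S19.KM.RedData
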