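import Fermat.Agent.S19.KM.Hopf.Basic
import Fermat.Agent.S19.KM.Hopf.Local
import Fermat.Agent.S19.KM.Red.Graph
import Fermat.Agent.S19.KM.Red.Reg

/-!
# S19 / KM route, section H2: `HA` is closed under comultiplication.   Owner: helper57.
-/

set_option autoImplicit false

noncomputable section

namespace Fermat.Agent.S19.KM.RedData

open Module Submodule

variable {K F k Fk : Type*} [Field K] [Field F] [Algebra K F] [Field k] [Field Fk] [Algebra k Fk]
variable {R : RedData K F k Fk} {ι : Type*} [Fintype ι] [DecidableEq ι] {X : Type*}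
variable {v : ι → F} {vb : ι → Fk} {𝒱 : X → Submodule K F}

/-- on a product of two classes a generator composed with the addition lies in `pairAlg` -/
theorem gen_add_mem_pairAlg [AddCommGroup X] [Finite X] (h : R.IsFrame v vb)
    (h𝒱 : ∀ P, 𝒱 P ≤ span K (Set.range v)) (hadd : R.AddReg v vb 𝒱) (P₀ Q₀ : X)
    {φ : X → R.A} (hφ : φ ∈ R.gens v 𝒱) :
    (fun ω : classProd R 𝒱 P₀ Q₀ => φ (ω.1.1 + ω.1.2)) ∈
      pairAlg (R.HA v 𝒱) (classProd R 𝒱 P₀ Q₀) := by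
  have hc := constRed_pairAlg (R := R) h h𝒱 P₀ Q₀
  have hreg := hadd _ _ hc (isReg_fst h h𝒱 P₀ Q₀) (isReg_snd h h𝒱 P₀ Q₀)
  have hconst := hreg.redSub_eq h hc
  rcases isEmpty_or_nonempty (classProd R 𝒱 P₀ Q₀) with hE | ⟨⟨ω₀⟩⟩
  · rw [Subsingleton.elim (fun ω : classProd R 𝒱 P₀ Q₀ => φ (ω.1.1 + ω.1.2)) 0]
    exact Subalgebra.zero_mem _
  rcases hφ with ⟨P₁, rfl⟩ | ⟨P₁, S, ⟨u, hu⟩, b, hb, j, hj, rfl⟩
  · by_cases h1 : R.redSub (𝒱 (ω₀.1.1 + ω₀.1.2)) = R.redSub (𝒱 P₁)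
    · have : (fun ω : classProd R 𝒱 P₀ Q₀ => R.idem 𝒱 P₁ (ω.1.1 + ω.1.2)) = 1 := by
        funext ω
        have h2 : R.redSub (𝒱 (ω.1.1 + ω.1.2)) = R.redSub (𝒱 P₁) := (hconst ω ω₀).trans h1
        simp [idem, h2]
      rw [this]
      exact Subalgebra.one_mem _
    · have : (fun ω : classProd R 𝒱 P₀ Q₀ => R.idem 𝒱 P₁ (ω.1.1 + ω.1.2)) = 0 := by
        funext ω
        have h2 : R.redSub (𝒱 (ω.1.1 + ω.1.2)) ≠ R.redSub (𝒱 P₁) :=
          fun hh => h1 ((hconst ω₀ ω).trans hh)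
        simp [idem, h2]
      rw [this]
      exact Subalgebra.zero_mem _
  · by_cases h1 : R.redSub (𝒱 (ω₀.1.1 + ω₀.1.2)) = R.redSub (𝒱 P₁)
    · have : (fun ω : classProd R 𝒱 P₀ Q₀ => R.genFun v 𝒱 P₁ S b j (ω.1.1 + ω.1.2)) =
          fun ω : classProd R 𝒱 P₀ Q₀ => R.gcoord v S (𝒱 (ω.1.1 + ω.1.2)) b j := by
        funext ω
        have h2 : R.redSub (𝒱 (ω.1.1 + ω.1.2)) = R.redSub (𝒱 P₁) := (hconst ω ω₀).trans h1
        simp [genFun, h2]
      rw [this]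
      obtain ⟨u', hu', -⟩ := hu.of_redSub_eq h (h𝒱 (ω₀.1.1 + ω₀.1.2)) h1
      exact (hreg.gcoord_mem h hc S (ω₀ := ω₀) ⟨u', hu'⟩).2 b hb j hj
    · have : (fun ω : classProd R 𝒱 P₀ Q₀ => R.genFun v 𝒱 P₁ S b j (ω.1.1 + ω.1.2)) = 0 := by
        funext ω
        have h2 : R.redSub (𝒱 (ω.1.1 + ω.1.2)) ≠ R.redSub (𝒱 P₁) :=
          fun hh => h1 ((hconst ω₀ ω).trans hh)
        simp [genFun, h2]
      rw [this]
      exact Subalgebra.zero_mem _

namespace Comul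

omit [Fintype ι] [DecidableEq ι] in
/-- the span of `prodSet H` is closed under multiplication -/
theorem mul_mem_span_prodSet (H : Subalgebra R.A (X → R.A)) {Φ Ψ : X × X → R.A}
    (hΦ : Φ ∈ span R.A (R.prodSet H)) (hΨ : Ψ ∈ span R.A (R.prodSet H)) :
    Φ * Ψ ∈ span R.A (R.prodSet H) := by
  have h1 : Φ * Ψ ∈ span R.A (R.prodSet H) * span R.A (R.prodSet H) := Submodule.mul_mem_mul hΦ hΨ
  rw [Submodule.span_mul_span] at h1
  refine span_mono ?_ h1
  rintro _ ⟨_, ⟨a, ha, b, hb, rfl⟩, _, ⟨a', ha', b', hb', rfl⟩, rfl⟩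
  refine ⟨a * a', H.mul_mem ha ha', b * b', H.mul_mem hb hb', ?_⟩
  funext q
  simp only [Pi.mul_apply]
  ring

end Comul

open Comul in
open Classical in
/-- **`HA` is closed under comultiplication.** -/
theorem comul_mem [AddCommGroup X] [Finite X] (h : R.IsFrame v vb)
    (h𝒱 : ∀ P, 𝒱 P ≤ span K (Set.range v)) (hadd : R.AddReg v vb 𝒱) :
    ∀ φ ∈ R.HA v 𝒱, (fun q : X × X => φ (q.1 + q.2)) ∈ span R.A (R.prodSet (R.HA v 𝒱)) := by
  refine comul_mem_of_gens (R.HA v 𝒱) (R.gens v 𝒱) fun φ hφ => ?_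
  have := Fintype.ofFinite X
  -- local expressions
  have hloc : ∀ P₀ Q₀ : X, ∃ Φ ∈ span R.A (R.prodSet (R.HA v 𝒱)),
      ∀ ω : classProd R 𝒱 P₀ Q₀, φ (ω.1.1 + ω.1.2) = Φ ω.1 := fun P₀ Q₀ =>
    exists_of_mem_pairAlg _ _ (gen_add_mem_pairAlg h h𝒱 hadd P₀ Q₀ hφ)
  choose Φ hΦ hΦ' using hloc
  -- classes and representatives
  let f : X → Submodule k Fk := fun P => R.redSub (𝒱 P)
  let Y : Finset (Submodule k Fk) := Finset.univ.image f
  let g : Submodule k Fk → X := fun c => if hc : ∃ P, f P = c then hc.choose else 0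
  have hg : ∀ P, f (g (f P)) = f P := by
    intro P
    have hc : ∃ P', f P' = f P := ⟨P, rfl⟩
    simp only [g, dif_pos hc]
    exact hc.choose_spec
  have hgY : ∀ c ∈ Y, f (g c) = c := by
    intro c hc
    obtain ⟨P, -, rfl⟩ := Finset.mem_image.mp hc
    exact hg P
  have key : (fun q : X × X => φ (q.1 + q.2)) =
      ∑ c ∈ Y, ∑ c' ∈ Y,
        (fun q : X × X => R.idem 𝒱 (g c) q.1 * R.idem 𝒱 (g c') q.2) * Φ (g c) (g c') := by
    funext q
    simp only [Finset.sum_apply, Pi.mul_apply]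
    rw [Finset.sum_eq_single (f q.1), Finset.sum_eq_single (f q.2)]
    · have h1 : R.idem 𝒱 (g (f q.1)) q.1 = 1 := by
        have : R.redSub (𝒱 q.1) = R.redSub (𝒱 (g (f q.1))) := (hg q.1).symm
        simp [idem, this]
      have h2 : R.idem 𝒱 (g (f q.2)) q.2 = 1 := by
        have : R.redSub (𝒱 q.2) = R.redSub (𝒱 (g (f q.2))) := (hg q.2).symm
        simp [idem, this]
      rw [h1, h2, one_mul, one_mul]
      exact hΦ' (g (f q.1)) (g (f q.2)) ⟨q, (hg q.1).symm, (hg q.2).symm⟩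
    · intro c' hc' hne
      have : R.idem 𝒱 (g c') q.2 = 0 := by
        have : R.redSub (𝒱 q.2) ≠ R.redSub (𝒱 (g c')) := fun hh => hne ((hgY c' hc').symm.trans hh.symm)
        simp [idem, this]
      rw [this, mul_zero, zero_mul]
    · intro hh
      exact absurd (Finset.mem_image_of_mem f (Finset.mem_univ q.2)) hh
    · intro c hc hne
      refine Finset.sum_eq_zero fun c' _ => ?_
      have : R.idem 𝒱 (g c) q.1 = 0 := by
        have : R.redSub (𝒱 q.1) ≠ R.redSub (𝒱 (g c)) := fun hh => hne ((hgY c hc).symm.trans hh.symm)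
        simp [idem, this]
      rw [this, zero_mul, zero_mul]
    · intro hh
      exact absurd (Finset.mem_image_of_mem f (Finset.mem_univ q.1)) hh
  rw [key]
  refine Submodule.sum_mem _ fun c _ => Submodule.sum_mem _ fun c' _ =>
    mul_mem_span_prodSet _ (subset_span ⟨_, idem_mem_HA (g c), _, idem_mem_HA (g c'), rfl⟩) (hΦ _ _)

end Fermat.Agent.S19.KM.RedData
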