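import Mathlib
import Fermat.Agent.S19.KM.Red.Defs

/-!
# S19 / KM route: the `A`-order attached to a family of subspaces (definitions)

`X` a finite abelian group, `𝒱 : X → Submodule K F` an injective family of subspaces of the span of a
frame `v`.  `HA` is the `A`-algebra of functions on `X` generated by the indicator functions of the
classes "equal reduction" and by the graph coordinates of `𝒱 P` on each class.
Mathlib only.  Owner: helper19.
-/

set_option autoImplicit false

noncomputable section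

namespace Fermat.Agent.S19.KM.RedData

open Module

variable {K F k Fk : Type*} [Field K] [Field F] [Algebra K F] [Field k] [Field Fk] [Algebra k Fk]
variable (R : RedData K F k Fk) {ι : Type*} [Fintype ι] [DecidableEq ι] {X : Type*}

open Classical in
/-- indicator function of the class of `P₀` -/
def idem (𝒱 : X → Submodule K F) (P₀ : X) : X → R.A :=
  fun P => if R.redSub (𝒱 P) = R.redSub (𝒱 P₀) then 1 else 0

open Classical in
/-- graph coordinate on the class of `P₀`, extended by zero -/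
def genFun (v : ι → F) (𝒱 : X → Submodule K F) (P₀ : X) (S : Finset ι) (b j : ι) : X → R.A :=
  fun P => if R.redSub (𝒱 P) = R.redSub (𝒱 P₀) then R.gcoord v S (𝒱 P) b j else 0

/-- the generators -/
def gens (v : ι → F) (𝒱 : X → Submodule K F) : Set (X → R.A) :=
  {φ | (∃ P₀, φ = R.idem 𝒱 P₀) ∨
    ∃ P₀ S, (∃ u, R.IsGraph v S u (𝒱 P₀)) ∧ ∃ b ∈ S, ∃ j ∉ S, φ = R.genFun v 𝒱 P₀ S b j}

/-- the `A`-order -/
def HA (v : ι → F) (𝒱 : X → Submodule K F) : Subalgebra R.A (X → R.A) :=
  Algebra.adjoin R.A (R.gens v 𝒱)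

/-- functions `(P, Q) ↦ a P * b Q` -/
def prodSet (H : Subalgebra R.A (X → R.A)) : Set (X × X → R.A) :=
  {Φ | ∃ a ∈ H, ∃ b ∈ H, Φ = fun q => a q.1 * b q.2}

/-- **the addition law is regular** -/
def AddReg [AddCommGroup X] (v : ι → F) (vb : ι → Fk) (𝒱 : X → Submodule K F) : Prop :=
  ∀ (Ω : Set (X × X)) (𝒮 : Subalgebra R.A (Ω → R.A)), R.ConstRed 𝒮 →
    R.IsReg 𝒮 v vb (fun ω => 𝒱 ω.1.1) → R.IsReg 𝒮 v vb (fun ω => 𝒱 ω.1.2) →
      R.IsReg 𝒮 v vb (fun ω => 𝒱 (ω.1.1 + ω.1.2))

end Fermat.Agent.S19.KM.RedData
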