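import Fermat.Agent.S19.KM.GR.Dec
import Fermat.Agent.S19.KM.Hopf.Defs
import Fermat.Agent.S19.KM.Red.Frame

/-!
# S19 / KM route: equivariance of the generators of the `A`-order (no curves)

Section E0 of the blueprint `WIP/MainBP.lean`: behaviour of graphs, graph coordinates, reductions
and of the generators `gens v 𝒱` under an element of the decomposition (resp. inertia) group which
fixes the frame `v`.
-/

set_option autoImplicit false

noncomputable section

namespace Fermat.Agent.S19.KM

open AlgebraicCurve Fermat.Agent.S24.FF Fermat.Agent.Lib.RR Module Submodule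

variable {K F k Fk : Type*} [Field K] [Field F] [Algebra K F] [Field k] [Field Fk] [Algebra k Fk]

namespace Equivariant

/-- semilinearity -/
theorem smul_smul_base (g : SemilinearAut K F) (c : K) (y : F) :
    g • (c • y) = SemilinearAut.baseAut g c • g • y := by
  rw [Algebra.smul_def, smul_mul', SemilinearAut.smul_algebraMap, ← Algebra.smul_def]

theorem mapSub_span_range {ι : Type*} (g : SemilinearAut K F) (w : ι → F) :
    mapSub g (span K (Set.range w)) = span K (Set.range fun b => g • w b) := by
  apply le_antisymm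
  · intro f hf
    rw [mem_mapSub] at hf
    have key : ∀ y ∈ span K (Set.range w), g • y ∈ span K (Set.range fun b => g • w b) := by
      intro y hy
      induction hy using Submodule.span_induction with
      | mem x hx =>
        obtain ⟨b, rfl⟩ := hx
        exact subset_span ⟨b, rfl⟩
      | zero => rw [smul_zero]; exact zero_mem _
      | add x y _ _ hx hy => rw [smul_add]; exact add_mem hx hy
      | smul c x _ hx => rw [smul_smul_base]; exact smul_mem _ _ hx
    have h := key _ hf
    rwa [smul_inv_smul] at h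
  · rw [span_le]
    rintro _ ⟨b, rfl⟩
    show g • w b ∈ mapSub g _
    rw [mem_mapSub, inv_smul_smul]
    exact subset_span ⟨b, rfl⟩

theorem mapSub_inv_mapSub (g : SemilinearAut K F) (W : Submodule K F) :
    mapSub g⁻¹ (mapSub g W) = W := by
  ext f
  rw [mem_mapSub, mem_mapSub, inv_inv, inv_smul_smul]

theorem mapSub_injective (g : SemilinearAut K F) :
    Function.Injective (mapSub g : Submodule K F → Submodule K F) := by
  intro W W' h
  rw [← mapSub_inv_mapSub g W, h, mapSub_inv_mapSub]

section graph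
variable {R : RedData K F k Fk} {J : Type*} [Fintype J] [DecidableEq J] {v : J → F}

/-- coordinates of the graph vector -/
def coef (S : Finset J) (u : J → J → R.A) (b : J) : J → K :=
  fun j => if j ∈ S then (if j = b then 1 else 0) else (u b j : K)

theorem graphVec_eq (S : Finset J) (u : J → J → R.A) {b : J} (hb : b ∈ S) :
    v b + ∑ j ∈ Sᶜ, ((u b j : R.A) : K) • v j = Fintype.linearCombination K v (coef S u b) := by
  rw [Fintype.linearCombination_apply, ← Finset.sum_add_sum_compl S]
  congr 1
  · rw [Finset.sum_eq_single b]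
    · simp [coef, hb]
    · intro j hj hjb
      simp [coef, hj, hjb]
    · intro h
      exact absurd hb h
  · apply Finset.sum_congr rfl
    intro j hj
    simp [coef, Finset.mem_compl.1 hj]

theorem isGraph_unique (hv : LinearIndependent K v) {S : Finset J} {u u' : J → J → R.A}
    {W : Submodule K F} (hg : R.IsGraph v S u W) (hg' : R.IsGraph v S u' W) :
    ∀ b ∈ S, ∀ j ∉ S, u b j = u' b j := by
  intro b hb j hj
  have hinj := hv.fintypeLinearCombination_injective
  have hmem : v b + ∑ j ∈ Sᶜ, ((u' b j : R.A) : K) • v j ∈ W := by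
    rw [hg']
    exact subset_span ⟨⟨b, hb⟩, rfl⟩
  rw [hg, Submodule.mem_span_range_iff_exists_fun] at hmem
  obtain ⟨c, hc⟩ := hmem
  have e : ∑ b' : S, c b' • coef S u (b' : J) = coef S u' b := by
    apply hinj
    rw [map_sum, ← graphVec_eq S u' hb, ← hc]
    apply Finset.sum_congr rfl
    intro b' _
    rw [map_smul, ← graphVec_eq S u b'.2]
  have hcb : ∀ b'' : S, c b'' = if (b'' : J) = b then 1 else 0 := by
    intro b''
    have h := congrFun e (b'' : J)
    rw [Finset.sum_apply, Finset.sum_eq_single b''] at h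
    · simpa [coef, b''.2] using h
    · intro x _ hx
      have : (b'' : J) ≠ x := fun h => hx (Subtype.ext h.symm)
      simp [coef, b''.2, this]
    · intro h
      exact absurd (Finset.mem_univ _) h
  have h := congrFun e j
  rw [Finset.sum_apply, Finset.sum_eq_single ⟨b, hb⟩] at h
  · have h1 : c ⟨b, hb⟩ = 1 := by rw [hcb]; simp
    apply Subtype.ext
    simpa [coef, hj, h1] using h
  · intro x _ hx
    have : (x : J) ≠ b := fun h => hx (Subtype.ext h)
    simp [hcb, this]
  · intro h
    exact absurd (Finset.mem_univ _) h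

theorem isGraph_gcoord {S : Finset J} {W : Submodule K F} (h : ∃ u, R.IsGraph v S u W) :
    R.IsGraph v S (R.gcoord v S W) W := by
  have e : R.gcoord v S W = h.choose := by
    funext b j
    simp only [RedData.gcoord, dif_pos h]
  rw [e]
  exact h.choose_spec

theorem gcoord_eq_zero {S : Finset J} {W : Submodule K F} (h : ¬ ∃ u, R.IsGraph v S u W)
    (b j : J) : R.gcoord v S W b j = 0 := by
  simp only [RedData.gcoord, dif_neg h]

end graph

end Equivariant

open Equivariant

/-! ### E0 : equivariance of the generators (no curves) -/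
section E0
variable {R : RedData K F k Fk} {J : Type*} [Fintype J] [DecidableEq J] {v : J → F} {vb : J → Fk}
  {X : Type*}

theorem RedData.IsGraph.mapSub (hv : R.IsFrame v vb) {g : SemilinearAut K F} (hg : R.IsDec g)
    (hfix : ∀ j, g • v j = v j) {S : Finset J} {u u' : J → J → R.A} {W : Submodule K F}
    (h : R.IsGraph v S u W) (hu : ∀ b j, (u' b j : K) = SemilinearAut.baseAut g (u b j : K)) :
    R.IsGraph v S u' (mapSub g W) := by
  unfold RedData.IsGraph at h ⊢
  rw [h, mapSub_span_range]
  congr 2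
  funext b
  rw [smul_add, hfix, Finset.smul_sum]
  congr 1
  apply Finset.sum_congr rfl
  intro j _
  rw [smul_smul_base, hfix, hu]

theorem RedData.exists_isGraph_mapSub_iff (hv : R.IsFrame v vb) {g : SemilinearAut K F}
    (hg : R.IsDec g) (hfix : ∀ j, g • v j = v j) (S : Finset J) (W : Submodule K F) :
    (∃ u, R.IsGraph v S u (mapSub g W)) ↔ ∃ u, R.IsGraph v S u W := by
  have aux : ∀ {g : SemilinearAut K F}, R.IsDec g → (∀ j, g • v j = v j) →
      ∀ W : Submodule K F, (∃ u, R.IsGraph v S u W) → ∃ u, R.IsGraph v S u (KM.mapSub g W) := by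
    intro g hg hfix W ⟨u, hu⟩
    exact ⟨fun b j => ⟨SemilinearAut.baseAut g (u b j : K), (hg.1 _).2 (u b j).2⟩,
      hu.mapSub hv hg hfix fun _ _ => rfl⟩
  refine ⟨fun h => ?_, aux hg hfix W⟩
  have h' := aux hg.inv (fun j => by rw [inv_smul_eq_iff, hfix]) _ h
  rwa [mapSub_inv_mapSub] at h'

theorem RedData.gcoord_mapSub (hv : R.IsFrame v vb) {g : SemilinearAut K F} (hg : R.IsDec g)
    (hfix : ∀ j, g • v j = v j) (S : Finset J) (W : Submodule K F) {b j : J} (hb : b ∈ S)
    (hj : j ∉ S) :
    (R.gcoord v S (mapSub g W) b j : K) = SemilinearAut.baseAut g (R.gcoord v S W b j : K) := by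
  by_cases h : ∃ u, R.IsGraph v S u W
  · have h' := (RedData.exists_isGraph_mapSub_iff hv hg hfix S W).2 h
    have h1 : R.IsGraph v S (fun b j => ⟨SemilinearAut.baseAut g (R.gcoord v S W b j : K),
        (hg.1 _).2 (R.gcoord v S W b j).2⟩) (mapSub g W) :=
      (isGraph_gcoord h).mapSub hv hg hfix fun _ _ => rfl
    have h2 := isGraph_unique hv.linearIndependent (isGraph_gcoord h') h1 b hb j hj
    rw [h2]
  · have h' : ¬ ∃ u, R.IsGraph v S u (mapSub g W) := fun h' =>
      h ((RedData.exists_isGraph_mapSub_iff hv hg hfix S W).1 h')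
    rw [gcoord_eq_zero h, gcoord_eq_zero h']
    simp

theorem RedData.redSub_mapSub_eq_iff (hsurj : Function.Surjective R.red) {g : SemilinearAut K F}
    (hg : R.IsDec g) (W W' : Submodule K F) :
    R.redSub (mapSub g W) = R.redSub (mapSub g W') ↔ R.redSub W = R.redSub W' := by
  obtain ⟨gb, -, hgb⟩ := hg.exists_resAut hsurj
  rw [hgb, hgb]
  exact (mapSub_injective gb).eq_iff

/-- transport of the generators by an element of the decomposition group -/
theorem RedData.exists_gens_smul (hsurj : Function.Surjective R.red) (hv : R.IsFrame v vb)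
    {g : SemilinearAut K F} (hg : R.IsDec g) (hfix : ∀ j, g • v j = v j)
    {𝒱 𝒱' : X → Submodule K F} (τ : X ≃ X) (h𝒱 : ∀ P, 𝒱' (τ P) = mapSub g (𝒱 P))
    {φ : X → R.A} (hφ : φ ∈ R.gens v 𝒱) :
    ∃ φ' ∈ R.gens v 𝒱', ∀ P, (φ' (τ P) : K) = SemilinearAut.baseAut g (φ P : K) := by
  rcases hφ with ⟨P₀, rfl⟩ | ⟨P₀, S, hS, b, hb, j, hj, rfl⟩
  · refine ⟨R.idem 𝒱' (τ P₀), Or.inl ⟨_, rfl⟩, fun P => ?_⟩
    simp only [RedData.idem, h𝒱, RedData.redSub_mapSub_eq_iff hsurj hg]
    split_ifs <;> simp
  · refine ⟨R.genFun v 𝒱' (τ P₀) S b j, Or.inr ⟨τ P₀, S, ?_, b, hb, j, hj, rfl⟩, fun P => ?_⟩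
    · rw [h𝒱]
      exact (RedData.exists_isGraph_mapSub_iff hv hg hfix S _).2 hS
    · simp only [RedData.genFun, h𝒱, RedData.redSub_mapSub_eq_iff hsurj hg]
      split_ifs
      · exact RedData.gcoord_mapSub hv hg hfix S _ hb hj
      · simp

/-- the generators are inertia-equivariant -/
theorem RedData.gens_smul_ine (hv : R.IsFrame v vb) {g : SemilinearAut K F} (hg : R.IsIne g)
    (hfix : ∀ j, g • v j = v j) {𝒱 : X → Submodule K F} (τ : X ≃ X)
    (h𝒱 : ∀ P, 𝒱 (τ P) = mapSub g (𝒱 P)) {φ : X → R.A} (hφ : φ ∈ R.gens v 𝒱) :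
    ∀ P, (φ (τ P) : K) = SemilinearAut.baseAut g (φ P : K) := by
  intro P
  rcases hφ with ⟨P₀, rfl⟩ | ⟨P₀, S, hS, b, hb, j, hj, rfl⟩
  · simp only [RedData.idem, h𝒱, hg.redSub_mapSub]
    split_ifs <;> simp
  · simp only [RedData.genFun, h𝒱, hg.redSub_mapSub]
    split_ifs
    · exact RedData.gcoord_mapSub hv hg.isDec hfix S _ hb hj
    · simp

end E0

end Fermat.Agent.S19.KM
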